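/-
P-CFT / RECIP-Q, row 1003 RQ-TAME (helper81): the field `M = fieldM ℓ p` at the prime `ℓ`.

`theorem fieldMTame : Fermat.Agent.H25.Recip.FieldMTameStatement` (unconditional).

Wrapper around the generic `tame_generic` (`TameCyclo.lean`): `fieldM ℓ p ≤ ℚ(ζ_ℓ)`,
`[fieldM ℓ p : ℚ] = p` (helper94 `finrank_fieldM0`), `M · K_ℓ / K_ℓ` finite Galois.
-/
import Fermat.Agent.H25.Recip.Interfaces
import Fermat.Agent.H94.Recip.FieldM
import Fermat.Agent.H81.Recip.TameCyclo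
import Fermat.Agent.H81.Local.EFBase

set_option autoImplicit false
set_option linter.style.haveILetI false
set_option synthInstance.maxHeartbeats 400000

noncomputable section

namespace Fermat.Agent.H81.Recip

open Fermat.Agent.H13.Cft Fermat.Agent.H78.CFT Fermat.Agent.H25.Recip Fermat.Agent.H81.Local
open Fermat.Agent.H94.Recip ExtCitation IntermediateField

variable (p ℓ : ℕ) [Fact ℓ.Prime]

/-- `fieldM ℓ p ≤ ℚ(ζ_ℓ)`. -/
theorem fieldM_le_cyc {ζ : Qb} (hζ : IsPrimitiveRoot ζ ℓ) : fieldM ℓ p ≤ ℚ⟮ζ⟯ := by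
  have hℓ : ℓ.Prime := Fact.out
  haveI : NeZero ℓ := ⟨hℓ.ne_zero⟩
  intro x hx
  apply mem_of_fixed
  intro σ hσ
  have hσζ : σ ζ = ζ := hσ ⟨ζ, mem_adjoin_simple_self ℚ ζ⟩
  have h1 : cycloChar ℓ σ = 1 := by
    apply Fermat.Agent.H94.Cft.cycloChar_eq_one_of_fix
    intro t ht
    obtain ⟨i, -, rfl⟩ := hζ.eq_pow_of_pow_eq_one ht
    rw [map_pow, hσζ]
  have h2 : σ ∈ powKer ℓ p := by
    rw [mem_powKer_iff, h1]
    exact Subgroup.one_mem _
  exact (IntermediateField.mem_fixedField_iff _ x).mp hx σ h2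

/-- `[fieldM ℓ p : ℚ] = p`. -/
theorem finrank_fieldM [Fact p.Prime] (hp : p ∣ ℓ - 1) : Module.finrank ℚ (fieldM ℓ p) = p := by
  haveI := finiteDimensional_fieldM0 ℓ p
  haveI := isGalois_fieldM0 ℓ p
  have h0 : Module.finrank Q0 (fieldM0 ℓ p) = p := finrank_fieldM0 ℓ p hp
  have h1 : Module.finrank ℚ (fieldM ℓ p) = Module.finrank ℚ (fieldM0 ℓ p) :=
    LinearEquiv.finrank_eq (fieldMEquiv ℓ p).toLinearEquiv
  have h2 := Module.finrank_mul_finrank ℚ Q0 (fieldM0 ℓ p)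
  have h3 : Module.finrank ℚ Q0 = 1 := IntermediateField.finrank_bot
  rw [h1, ← h2, h3, one_mul, h0]

theorem restrictScalars_fieldMLoc :
    (fieldMLoc ℓ p ℓ).restrictScalars ℚ = fieldM ℓ p ⊔ localField ℓ :=
  IntermediateField.extendScalars_restrictScalars _

theorem finiteDimensional_fieldMLoc :
    FiniteDimensional (localField ℓ) (fieldMLoc ℓ p ℓ) := by
  haveI := finiteDimensional_fieldM ℓ p
  have hE : IsLocalFinite ℓ (fieldM ℓ p ⊔ localField ℓ) := by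
    rw [sup_comm]
    exact isLocalFinite_sup (fieldM ℓ p)
  exact hE.finiteDimensional

theorem isGalois_fieldMLoc : IsGalois (localField ℓ) (fieldMLoc ℓ p ℓ) := by
  haveI := Fermat.Agent.H81.isGalois_rat_Qbar
  haveI := Fermat.Agent.H81.isAlgebraic_rat_Qbar
  haveI hnormal : Normal (localField ℓ) Qb := Normal.tower_top_of_normal ℚ (localField ℓ) Qb
  haveI hMgal : IsGalois ℚ (fieldM ℓ p) := isGalois_fieldM ℓ p
  have hMnorm : Normal ℚ (fieldM ℓ p) := inferInstance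
  have hadj := compositum_eq_adjoin (fieldM ℓ p) (fieldMLoc ℓ p ℓ)
    (restrictScalars_fieldMLoc p ℓ)
  have hN : Normal (localField ℓ) (fieldMLoc ℓ p ℓ) := by
    rw [IntermediateField.normal_iff_forall_map_le']
    intro σ
    rw [hadj, IntermediateField.adjoin_map]
    apply IntermediateField.adjoin.mono
    rintro y ⟨m, hm, rfl⟩
    have h := (IntermediateField.normal_iff_forall_map_le' (K := fieldM ℓ p)).mp hMnorm
      (σ.restrictScalars ℚ)
    exact h ⟨m, hm, rfl⟩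
  haveI := finiteDimensional_fieldMLoc p ℓ
  exact ⟨⟩

/-- **[RQ-TAME]** -/
theorem fieldMTame : Fermat.Agent.H25.Recip.FieldMTameStatement := by
  intro p ℓ _ _ hp2 hpl
  have hℓ : ℓ.Prime := Fact.out
  have hp : p.Prime := Fact.out
  haveI : NeZero ℓ := ⟨hℓ.ne_zero⟩
  have hℓ2 : ℓ ≠ 2 := by
    rintro rfl
    have h1 : p ∣ 1 := by simpa using hpl
    exact hp.one_lt.ne' (Nat.dvd_one.mp h1)
  obtain ⟨ζ, hζ⟩ := HasEnoughRootsOfUnity.exists_primitiveRoot Qb ℓ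
  have hM := fieldM_le_cyc p ℓ hζ
  haveI hfd := finiteDimensional_fieldMLoc p ℓ
  obtain ⟨hdeg, hnorm⟩ := tame_generic hζ (fieldM ℓ p) hM (fieldMLoc ℓ p ℓ)
    (restrictScalars_fieldMLoc p ℓ) hℓ2
  refine ⟨hfd, isGalois_fieldMLoc p ℓ, by rw [hdeg, finrank_fieldM p ℓ hpl], ?_⟩
  intro a e hae hy
  obtain ⟨b, hb⟩ := hnorm a e hae hy
  rw [finrank_fieldM p ℓ hpl] at hb
  exact ⟨b, hb⟩

end Fermat.Agent.H81.Recip
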