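/-
P-CFT / RECIP-Q (helper81): `q`-adic valuation of `1 - ζ` for primitive `q`-th roots of unity `ζ`
of `ℚ̄` (`q` the residue characteristic):  `v(1 - ζ) ^ (q - 1) = v(q)`.
-/
import Mathlib
import Fermat.Agent.H81.Local.EFBase

set_option autoImplicit false
set_option linter.style.haveILetI false

noncomputable section

namespace Fermat.Agent.H81.Recip

open Fermat.Agent.H81.Local Polynomial
open scoped NNReal

local notation "Qb" => AlgebraicClosure ℚ

variable {q : ℕ} [Fact q.Prime]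

theorem qVal_eq_one_of_pow_eq_one {x : Qb} {n : ℕ} (hn : n ≠ 0) (hx : x ^ n = 1) :
    qVal q x = 1 := by
  have h : qVal q x ^ n = 1 := by rw [← map_pow, hx, map_one]
  exact (pow_eq_one_iff_of_nonneg zero_le hn).mp h

theorem qVal_one_sub_pow_le {x : Qb} (hx : qVal q x ≤ 1) (i : ℕ) :
    qVal q (1 - x ^ i) ≤ qVal q (1 - x) := by
  have h1 : 1 - x ^ i = (1 - x) * ∑ j ∈ Finset.range i, x ^ j := by
    have := mul_neg_geom_sum x i
    rw [← this]
  rw [h1, map_mul]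
  have h2 : qVal q (∑ j ∈ Finset.range i, x ^ j) ≤ 1 := by
    apply Valuation.map_sum_le
    intro j _
    rw [map_pow]
    exact pow_le_one₀ zero_le hx
  calc qVal q (1 - x) * qVal q (∑ j ∈ Finset.range i, x ^ j) ≤ qVal q (1 - x) * 1 := by gcongr
    _ = qVal q (1 - x) := mul_one _

/-- `v(1 - ζ')= v(1 - ζ)` for two primitive `n`-th roots of unity. -/
theorem qVal_one_sub_eq_of_isPrimitiveRoot {n : ℕ} [NeZero n] {ζ ζ' : Qb}
    (hζ : IsPrimitiveRoot ζ n) (hζ' : IsPrimitiveRoot ζ' n) :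
    qVal q (1 - ζ') = qVal q (1 - ζ) := by
  have h1 : qVal q ζ = 1 := qVal_eq_one_of_pow_eq_one (NeZero.ne n) hζ.pow_eq_one
  have h1' : qVal q ζ' = 1 := qVal_eq_one_of_pow_eq_one (NeZero.ne n) hζ'.pow_eq_one
  obtain ⟨i, -, hi⟩ := hζ.eq_pow_of_pow_eq_one hζ'.pow_eq_one
  obtain ⟨j, -, hj⟩ := hζ'.eq_pow_of_pow_eq_one hζ.pow_eq_one
  apply le_antisymm
  · rw [← hi]
    exact qVal_one_sub_pow_le h1.le i
  · rw [← hj]
    exact qVal_one_sub_pow_le h1'.le j

/-- `∏ (1 - μ) = q` over the primitive `q`-th roots of unity. -/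
theorem prod_one_sub_primitiveRoots {ζ : Qb} (hζ : IsPrimitiveRoot ζ q) :
    ∏ μ ∈ primitiveRoots q Qb, (1 - μ) = (q : Qb) := by
  have h1 : eval 1 (cyclotomic q Qb) = (q : Qb) := eval_one_cyclotomic_prime
  rw [cyclotomic_eq_prod_X_sub_primitiveRoots hζ, eval_prod] at h1
  rw [← h1]
  apply Finset.prod_congr rfl
  intro μ _
  simp

/-- `v(1 - ζ) ^ (q - 1) = v(q)`. -/
theorem qVal_one_sub_pow_eq {ζ : Qb} (hζ : IsPrimitiveRoot ζ q) :
    qVal q (1 - ζ) ^ (q - 1) = (q : ℝ≥0)⁻¹ := by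
  have hq : q.Prime := Fact.out
  haveI : NeZero q := ⟨hq.ne_zero⟩
  have h1 := prod_one_sub_primitiveRoots hζ
  have h2 : qVal q (∏ μ ∈ primitiveRoots q Qb, (1 - μ)) = qVal q (1 - ζ) ^ (q - 1) := by
    rw [map_prod]
    rw [Finset.prod_congr rfl (fun μ hμ => qVal_one_sub_eq_of_isPrimitiveRoot hζ
      ((mem_primitiveRoots hq.pos).mp hμ))]
    rw [Finset.prod_const, hζ.card_primitiveRoots, Nat.totient_prime hq]
  rw [← h2, h1, qVal_natCast_self]

theorem one_sub_ne_zero {ζ : Qb} (hζ : IsPrimitiveRoot ζ q) : (1 - ζ : Qb) ≠ 0 := by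
  have hq : q.Prime := Fact.out
  intro h
  have : ζ = 1 := (sub_eq_zero.mp h).symm
  exact hζ.ne_one hq.one_lt this

end Fermat.Agent.H81.Recip
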