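/-
P-CFT / RECIP-Q (helper81): the TAME NORM LEMMA in the local currency `qVal q` on `ℚ̄`.

For `E ≤ F` finite over the local field `K_q` (inside `ℚ̄`) with the SAME residue field
(`resCard q F = resCard q E`, i.e. `F / E` totally ramified) and `n = [F : E]`:

* `exists_rep_of_resCard_eq` : every integral element of `F` is congruent to an element of `E`;
* `qVal_embedding_sub_lt_one` : `σ u ≡ u` modulo the maximal ideal for every `E`-embedding `σ`
  of `F` into `ℚ̄` and every integral `u ∈ F`;
* `qVal_norm_sub_pow_lt_one` : `N_{F/E}(u) ≡ u ^ n`;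
* `exists_norm_unit_eq_pow` : `N_{F/E}(u) ≡ x ^ n` with a unit `x ∈ E`, for a unit `u` of `F`;
* `exists_norm_eq_unif_pow` : every nonzero norm is `N(ϖ) ^ k * v` with `v ≡ x ^ n`, `x ∈ E` a unit.
-/
import Mathlib
import Fermat.Agent.H81.Local.EF
import Fermat.Agent.H81.Local.LocalDatum

set_option autoImplicit false

noncomputable section

namespace Fermat.Agent.H81.Recip

open Fermat.Agent.H81.Local Fermat.Agent.H49.Unram
open scoped NNReal

local notation "Qb" => AlgebraicClosure ℚ

variable {q : ℕ} [Fact q.Prime]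

/-- A product of elements congruent to `y` is congruent to a power of `y`. -/
theorem qVal_prod_sub_pow_lt_one {ι : Type*} (s : Finset ι) (x : ι → Qb) (y : Qb)
    (hy : qVal q y ≤ 1) (h : ∀ i ∈ s, qVal q (x i - y) < 1) :
    qVal q (∏ i ∈ s, x i - y ^ s.card) < 1 ∧ qVal q (∏ i ∈ s, x i) ≤ 1 := by
  classical
  induction s using Finset.induction_on with
  | empty => simp
  | insert a s ha ih =>
    obtain ⟨ih1, ih2⟩ := ih (fun i hi => h i (Finset.mem_insert_of_mem hi))
    have hxa : qVal q (x a - y) < 1 := h a (Finset.mem_insert_self a s)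
    have hxa1 : qVal q (x a) ≤ 1 := by
      have : x a = (x a - y) + y := by ring
      rw [this]
      exact le_trans (Valuation.map_add _ _ _) (max_le hxa.le hy)
    rw [Finset.prod_insert ha, Finset.card_insert_of_notMem ha, pow_succ]
    refine ⟨?_, ?_⟩
    · have : x a * ∏ i ∈ s, x i - y ^ s.card * y
          = (x a - y) * ∏ i ∈ s, x i + y * (∏ i ∈ s, x i - y ^ s.card) := by ring
      rw [this]
      refine lt_of_le_of_lt (Valuation.map_add _ _ _) (max_lt ?_ ?_)
      · rw [map_mul]
        calc qVal q (x a - y) * qVal q (∏ i ∈ s, x i) ≤ qVal q (x a - y) * 1 := by gcongr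
          _ = qVal q (x a - y) := mul_one _
          _ < 1 := hxa
      · rw [map_mul]
        calc qVal q y * qVal q (∏ i ∈ s, x i - y ^ s.card)
            ≤ 1 * qVal q (∏ i ∈ s, x i - y ^ s.card) := by gcongr
          _ = qVal q (∏ i ∈ s, x i - y ^ s.card) := one_mul _
          _ < 1 := ih1
    · rw [map_mul]
      calc qVal q (x a) * qVal q (∏ i ∈ s, x i) ≤ 1 * 1 := by gcongr
        _ = 1 := one_mul _

/-- If `E ≤ E'` have the same residue cardinality, every integral element of `E'` is congruent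
to an (integral) element of `E`. -/
theorem exists_rep_of_resCard_eq {E E' : IntermediateField ℚ Qb} (hE : IsLocalFinite q E)
    (hE' : IsLocalFinite q E') (hle : E ≤ E') (hres : resCard q E' = resCard q E)
    {x : Qb} (hx : x ∈ E') (hx1 : qVal q x ≤ 1) :
    ∃ a ∈ E, qVal q a ≤ 1 ∧ qVal q (x - a) < 1 := by
  classical
  obtain ⟨R, hRcard, hR1, hR2, hR3⟩ := exists_resSystem_qbar hE
  obtain ⟨R', hR'card, hR'1, hR'2, hR'3⟩ := exists_resSystem_qbar hE'
  -- the map `R → R'`
  have hex : ∀ r ∈ R, ∃ r' ∈ R', qVal q (r - r') < 1 := fun r hr =>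
    hR'3 r (hle (hR1 r hr).1) (hR1 r hr).2
  choose! g hg hgr using hex
  have hinj : Set.InjOn g (R : Set Qb) := by
    intro r hr s hs hrs
    apply hR2 r hr s hs
    have h1 := hgr r hr
    have h2 := hgr s hs
    rw [hrs] at h1
    have : r - s = (r - g s) - (s - g s) := by ring
    rw [this]
    exact lt_of_le_of_lt (Valuation.map_sub _ _ _) (max_lt h1 h2)
  have himg : R.image g = R' := by
    apply Finset.eq_of_subset_of_card_le
    · intro y hy
      obtain ⟨r, hr, rfl⟩ := Finset.mem_image.mp hy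
      exact hg r hr
    · rw [Finset.card_image_of_injOn hinj, hRcard, hR'card, hres]
  obtain ⟨r', hr', hxr'⟩ := hR'3 x hx hx1
  rw [← himg] at hr'
  obtain ⟨r, hr, rfl⟩ := Finset.mem_image.mp hr'
  refine ⟨r, (hR1 r hr).1, (hR1 r hr).2, ?_⟩
  have : x - r = (x - g r) - (r - g r) := by ring
  rw [this]
  exact lt_of_le_of_lt (Valuation.map_sub _ _ _) (max_lt hxr' (hgr r hr))

/-- `E`-embeddings of `F` into `ℚ̄` preserve the valuation. -/
theorem qVal_embedding {E : IntermediateField ℚ Qb} (hE : localField q ≤ E)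
    (F : IntermediateField E Qb) (σ : F →ₐ[E] Qb) (u : F) :
    qVal q (σ u) = qVal q (u : Qb) := by
  apply qVal_conj q hE
  have h1 : minpoly E (u : Qb) = minpoly E u := (minpoly.algebraMap_eq
    (algebraMap F Qb).injective u)
  rw [h1]
  have h2 : Polynomial.aeval (σ u) (minpoly E u) = σ (Polynomial.aeval u (minpoly E u)) :=
    (Polynomial.aeval_algHom_apply σ u (minpoly E u))
  rw [h2, minpoly.aeval, map_zero]

/-- In a totally ramified extension `F / E` every `E`-embedding of `F` into `ℚ̄` is the identity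
modulo the maximal ideal. -/
theorem qVal_embedding_sub_lt_one {E : IntermediateField ℚ Qb} (hE : IsLocalFinite q E)
    (F : IntermediateField E Qb) [FiniteDimensional E F]
    (hres : resCard q (F.restrictScalars ℚ) = resCard q E) (σ : F →ₐ[E] Qb) (u : F)
    (hu : qVal q (u : Qb) ≤ 1) : qVal q (σ u - (u : Qb)) < 1 := by
  have hF : IsLocalFinite q (F.restrictScalars ℚ) := hE.of_finiteDimensional F
  have hEF : E ≤ F.restrictScalars ℚ := fun x hx => F.algebraMap_mem ⟨x, hx⟩
  obtain ⟨a, haE, -, hua⟩ := exists_rep_of_resCard_eq hE hF hEF hres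
    (x := (u : Qb)) u.2 hu
  have h1 : σ (u - algebraMap E F ⟨a, haE⟩) = σ u - a := by
    rw [map_sub, AlgHom.commutes]
    rfl
  have h2 : qVal q (σ u - a) < 1 := by
    rw [← h1, qVal_embedding hE.le F σ]
    exact hua
  have : σ u - (u : Qb) = (σ u - a) - ((u : Qb) - a) := by ring
  rw [this]
  exact lt_of_le_of_lt (Valuation.map_sub _ _ _) (max_lt h2 hua)

/-- **Tame norm lemma**: `N_{F/E}(u) ≡ u ^ [F : E]` modulo the maximal ideal, for `F / E`
totally ramified and `u ∈ F` integral. -/
theorem qVal_norm_sub_pow_lt_one {E : IntermediateField ℚ Qb} (hE : IsLocalFinite q E)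
    (F : IntermediateField E Qb) [FiniteDimensional E F]
    (hres : resCard q (F.restrictScalars ℚ) = resCard q E) (u : F)
    (hu : qVal q (u : Qb) ≤ 1) :
    qVal q (((Algebra.norm E u : E) : Qb) - (u : Qb) ^ Module.finrank E F) < 1 := by
  classical
  have h1 : ((Algebra.norm E u : E) : Qb) = ∏ σ : F →ₐ[E] Qb, σ u :=
    Algebra.norm_eq_prod_embeddings E Qb u
  have h2 : Module.finrank E F = (Finset.univ : Finset (F →ₐ[E] Qb)).card := by
    rw [Finset.card_univ, AlgHom.card_of_splits E F Qb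
      (fun s => IsAlgClosed.splits _)]
  rw [h1, h2]
  exact (qVal_prod_sub_pow_lt_one Finset.univ (fun σ : F →ₐ[E] Qb => σ u) (u : Qb) hu
    (fun σ _ => qVal_embedding_sub_lt_one hE F hres σ u hu)).1

/-- The norm of a unit of a totally ramified extension is congruent to an `n`-th power of a unit
of the base, `n = [F : E]`. -/
theorem exists_norm_unit_eq_pow {E : IntermediateField ℚ Qb} (hE : IsLocalFinite q E)
    (F : IntermediateField E Qb) [FiniteDimensional E F]
    (hres : resCard q (F.restrictScalars ℚ) = resCard q E) (u : F)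
    (hu : qVal q (u : Qb) = 1) :
    ∃ x ∈ E, qVal q x = 1 ∧
      qVal q (((Algebra.norm E u : E) : Qb) - x ^ Module.finrank E F) < 1 := by
  have hF : IsLocalFinite q (F.restrictScalars ℚ) := hE.of_finiteDimensional F
  have hEF : E ≤ F.restrictScalars ℚ := fun x hx => F.algebraMap_mem ⟨x, hx⟩
  obtain ⟨a, haE, ha1, hua⟩ := exists_rep_of_resCard_eq hE hF hEF hres
    (x := (u : Qb)) u.2 hu.le
  have hau : qVal q (a - (u : Qb)) < 1 := by
    rw [← Valuation.map_neg]; simpa using hua
  have ha : qVal q a = 1 := by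
    have h := Valuation.map_add_eq_of_lt_right (qVal q) (x := a - (u : Qb)) (y := (u : Qb))
      (by rw [hu]; exact hau)
    rw [sub_add_cancel] at h
    rw [h, hu]
  refine ⟨a, haE, ha, ?_⟩
  have h3 := qVal_norm_sub_pow_lt_one hE F hres u hu.le
  have h4 : qVal q ((u : Qb) ^ Module.finrank E F - a ^ Module.finrank E F) < 1 := by
    have := (qVal_prod_sub_pow_lt_one (q := q) (Finset.range (Module.finrank E F))
      (fun _ => (u : Qb)) a ha.le (fun _ _ => hua)).1
    simpa using this
  have : ((Algebra.norm E u : E) : Qb) - a ^ Module.finrank E F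
      = (((Algebra.norm E u : E) : Qb) - (u : Qb) ^ Module.finrank E F)
        + ((u : Qb) ^ Module.finrank E F - a ^ Module.finrank E F) := by ring
  rw [this]
  exact lt_of_le_of_lt (Valuation.map_add _ _ _) (max_lt h3 h4)

/-- **Norms of a totally ramified extension**: if `ϖ` is a uniformizer of `F` then every nonzero
norm from `F` is `N(ϖ) ^ k * v` with `v ≡ x ^ n` modulo the maximal ideal, `x` a unit of `E`. -/
theorem exists_norm_eq_unif_pow {E : IntermediateField ℚ Qb} (hE : IsLocalFinite q E)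
    (F : IntermediateField E Qb) [FiniteDimensional E F]
    (hres : resCard q (F.restrictScalars ℚ) = resCard q E) (ϖ : F)
    (hϖ : IsUnif q (F.restrictScalars ℚ) (ϖ : Qb)) (y : F) (hy : y ≠ 0) :
    ∃ (k : ℤ), ∃ x ∈ E, qVal q x = 1 ∧
      qVal q (((Algebra.norm E y : E) : Qb) * (((Algebra.norm E ϖ : E) : Qb) ^ k)⁻¹
        - x ^ Module.finrank E F) < 1 := by
  have hy0 : (y : Qb) ≠ 0 := fun h => hy (Subtype.ext h)
  have hϖ0 : ϖ ≠ 0 := fun h => hϖ.2.1 (by rw [h]; rfl)
  obtain ⟨k, hk⟩ := hϖ.2.2.2 (y : Qb) y.2 hy0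
  set u : F := y * (ϖ ^ k)⁻¹ with hu_def
  have hu : qVal q (u : Qb) = 1 := by
    have : (u : Qb) = (y : Qb) * (((ϖ : Qb)) ^ k)⁻¹ := by
      rw [hu_def]
      change (algebraMap F Qb) (y * (ϖ ^ k)⁻¹) = _
      rw [map_mul, map_inv₀, map_zpow₀]
      rfl
    rw [this, map_mul, map_inv₀, map_zpow₀, hk]
    exact mul_inv_cancel₀ (zpow_ne_zero _ hϖ.pos.ne')
  obtain ⟨x, hxE, hx1, hx⟩ := exists_norm_unit_eq_pow hE F hres u hu
  refine ⟨k, x, hxE, hx1, ?_⟩
  have hN : ((Algebra.norm E u : E) : Qb)
      = ((Algebra.norm E y : E) : Qb) * (((Algebra.norm E ϖ : E) : Qb) ^ k)⁻¹ := by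
    rw [hu_def, map_mul, Algebra.norm_inv, Algebra.norm_zpow]
    change (algebraMap E Qb) (Algebra.norm E y * ((Algebra.norm E ϖ) ^ k)⁻¹) = _
    rw [map_mul, map_inv₀, map_zpow₀]
    rfl
  rw [← hN]
  exact hx

end Fermat.Agent.H81.Recip
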