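/-
P-CFT / RECIP-Q, row RQ-TAME (helper81, generic half): the subfield `M` of degree `p` of `ℚ(ζ_ℓ)`
at the prime `ℓ`.

For `M ≤ ℚ(ζ)` (`ζ` a primitive `ℓ`-th root of unity, `ℓ` an odd prime) with `[M : ℚ] = p` and
`F = M · K_ℓ` (`K_ℓ = localField ℓ`):
* `[F : K_ℓ] = p`, `F / K_ℓ` is totally ramified, `π_M = N_{ℚ(ζ)/M}(1 - ζ)` is a uniformizer;
* `N_{F/K_ℓ}(π_M) = ℓ`;
* a norm `a ∈ K_ℓ` from `F` with `v(a) = v(ℓ) ^ e` satisfies `a ℓ^{-e} ≡ b ^ p` for an integer
  `b` (tame norm lemma of `TameNorm.lean`).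
-/
import Mathlib
import Fermat.Agent.H81.Recip.TameNorm
import Fermat.Agent.H81.Recip.CycloVal

set_option autoImplicit false
set_option linter.style.haveILetI false
set_option synthInstance.maxHeartbeats 400000

noncomputable section

namespace Fermat.Agent.H81.Recip

open Fermat.Agent.H81.Local Fermat.Agent.H49.Unram Polynomial IntermediateField
open scoped NNReal

local notation "Qb" => AlgebraicClosure ℚ

variable {l : ℕ} [Fact l.Prime]

section Global

variable {ζ : Qb} (hζ : IsPrimitiveRoot ζ l) (M : IntermediateField ℚ Qb) (hM : M ≤ ℚ⟮ζ⟯)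

/-- `ℚ(ζ)` as an extension of `M`. -/
abbrev cycOver : IntermediateField M Qb := IntermediateField.extendScalars hM

/-- `ζ` as an element of `ℚ(ζ) / M`. -/
def zetaK : cycOver M hM := ⟨ζ, mem_adjoin_simple_self ℚ ζ⟩

/-- The identification of `ℚ(ζ) / M` with `ℚ(ζ)` over `ℚ`. -/
def cycEquiv : cycOver M hM ≃ₐ[ℚ] ℚ⟮ζ⟯ where
  toFun x := ⟨x.1, x.2⟩
  invFun x := ⟨x.1, x.2⟩
  left_inv _ := rfl
  right_inv _ := rfl
  map_mul' _ _ := rfl
  map_add' _ _ := rfl
  commutes' _ := rfl

include hζ in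
theorem finrank_adjoin_zeta : Module.finrank ℚ ℚ⟮ζ⟯ = l - 1 := by
  have hl : l.Prime := Fact.out
  haveI : NeZero l := ⟨hl.ne_zero⟩
  haveI := Fermat.Agent.H81.isAlgebraic_rat_Qbar
  have h1 := hζ.intermediateField_adjoin_isCyclotomicExtension ℚ
  have h2 := @IsCyclotomicExtension.finrank l _ ℚ ℚ⟮ζ⟯ _ _ _ _ h1
    (cyclotomic.irreducible_rat hl.pos)
  rw [← Nat.totient_prime hl, ← h2]

omit [Fact l.Prime] in
theorem finiteDimensional_adjoin_zeta (ζ : Qb) : FiniteDimensional ℚ ℚ⟮ζ⟯ := by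
  haveI := Fermat.Agent.H81.isAlgebraic_rat_Qbar
  exact adjoin.finiteDimensional (Algebra.IsIntegral.isIntegral ζ)

omit [Fact l.Prime] in
include hM in
theorem finiteDimensional_of_le_cyc : FiniteDimensional ℚ M := by
  haveI := finiteDimensional_adjoin_zeta ζ
  exact FiniteDimensional.of_injective (IntermediateField.inclusion hM).toLinearMap
    (IntermediateField.inclusion hM).injective

omit [Fact l.Prime] in
theorem finiteDimensional_cycOver : FiniteDimensional M (cycOver M hM) := by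
  haveI := finiteDimensional_adjoin_zeta ζ
  haveI : FiniteDimensional ℚ (cycOver M hM) :=
    FiniteDimensional.of_injective (cycEquiv M hM).toLinearMap (cycEquiv M hM).injective
  exact Module.Finite.of_restrictScalars_finite ℚ M (cycOver M hM)

include hζ in
theorem finrank_mul_finrank_cyc :
    Module.finrank ℚ M * Module.finrank M (cycOver M hM) = l - 1 := by
  rw [Module.finrank_mul_finrank ℚ M (cycOver M hM), ← finrank_adjoin_zeta hζ]
  exact LinearEquiv.finrank_eq (cycEquiv M hM).toLinearEquiv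

/-- `π_M = N_{ℚ(ζ)/M}(1 - ζ)`. -/
def piM : M := Algebra.norm M ((1 : cycOver M hM) - zetaK M hM)

omit [Fact l.Prime] in
theorem coe_piM [FiniteDimensional M (cycOver M hM)] : ((piM M hM : M) : Qb)
    = ∏ σ : cycOver M hM →ₐ[M] Qb, (1 - σ (zetaK M hM)) := by
  have h := Algebra.norm_eq_prod_embeddings M Qb ((1 : cycOver M hM) - zetaK M hM)
  rw [show ((piM M hM : M) : Qb) = algebraMap M Qb (piM M hM) from rfl]
  rw [piM, h]
  apply Finset.prod_congr rfl
  intro σ _
  rw [map_sub, map_one]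

omit [Fact l.Prime] in
include hζ in
theorem isPrimitiveRoot_embedding (σ : cycOver M hM →ₐ[M] Qb) :
    IsPrimitiveRoot (σ (zetaK M hM)) l := by
  have h1 : IsPrimitiveRoot (zetaK M hM) l :=
    IsPrimitiveRoot.coe_submonoidClass_iff.mp hζ
  exact h1.map_of_injective σ.injective

include hζ in
theorem qVal_piM : qVal l ((piM M hM : M) : Qb)
    = qVal l (1 - ζ) ^ Module.finrank M (cycOver M hM) := by
  classical
  have hl : l.Prime := Fact.out
  haveI : NeZero l := ⟨hl.ne_zero⟩
  haveI := finiteDimensional_cycOver M hM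
  rw [coe_piM, map_prod]
  rw [Finset.prod_congr rfl (fun σ _ => qVal_one_sub_eq_of_isPrimitiveRoot (q := l) hζ
    (isPrimitiveRoot_embedding hζ M hM σ))]
  rw [Finset.prod_const, Finset.card_univ, AlgHom.card_of_splits M (cycOver M hM) Qb
      (fun s => IsAlgClosed.splits _)]

include hζ in
theorem qVal_piM_pow : qVal l ((piM M hM : M) : Qb) ^ Module.finrank ℚ M = (l : ℝ≥0)⁻¹ := by
  rw [qVal_piM hζ, ← pow_mul, mul_comm, finrank_mul_finrank_cyc hζ, qVal_one_sub_pow_eq hζ]

include hζ in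
theorem norm_piM (hl2 : l ≠ 2) : Algebra.norm ℚ (piM M hM) = (l : ℚ) := by
  have hl : l.Prime := Fact.out
  haveI : NeZero l := ⟨hl.ne_zero⟩
  haveI := Fermat.Agent.H81.isAlgebraic_rat_Qbar
  haveI := finiteDimensional_cycOver M hM
  haveI := finiteDimensional_adjoin_zeta ζ
  rw [piM, Algebra.norm_norm]
  rw [← Algebra.norm_eq_of_algEquiv (cycEquiv M hM)]
  have h1 := hζ.intermediateField_adjoin_isCyclotomicExtension ℚ
  have hgen : IsPrimitiveRoot (AdjoinSimple.gen ℚ ζ) l :=
    IsPrimitiveRoot.coe_submonoidClass_iff.mp hζ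
  have h2 := @IsPrimitiveRoot.norm_sub_one_of_prime_ne_two' l ℚ ℚ⟮ζ⟯ _
    (AdjoinSimple.gen ℚ ζ) _ _ _ h1 hgen (cyclotomic.irreducible_rat hl.pos) hl2
  have h3 : (cycEquiv M hM) ((1 : cycOver M hM) - zetaK M hM)
      = -(AdjoinSimple.gen ℚ ζ - 1) := by
    rw [neg_sub]
    rfl
  rw [h3]
  have h4 : (-(AdjoinSimple.gen ℚ ζ - 1) : ℚ⟮ζ⟯)
      = algebraMap ℚ ℚ⟮ζ⟯ (-1) * (AdjoinSimple.gen ℚ ζ - 1) := by
    rw [map_neg, map_one, neg_one_mul]
  rw [h4, map_mul, Algebra.norm_algebraMap, h2, finrank_adjoin_zeta hζ]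
  have hodd : Even (l - 1) := by
    rcases hl.eq_two_or_odd' with h | h
    · exact absurd h hl2
    · exact Nat.Prime.even_sub_one hl hl2
  rw [hodd.neg_one_pow, one_mul]

end Global

section LocalPart

variable {ζ : Qb} (hζ : IsPrimitiveRoot ζ l) (M : IntermediateField ℚ Qb) (hM : M ≤ ℚ⟮ζ⟯)
  (F : IntermediateField (localField l) Qb) (hF : F.restrictScalars ℚ = M ⊔ localField l)

include hM hF in
theorem isLocalFinite_compositum : IsLocalFinite l (F.restrictScalars ℚ) := by
  haveI := finiteDimensional_of_le_cyc M hM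
  rw [hF, sup_comm]
  exact isLocalFinite_sup M

include hF in
theorem mem_compositum_of_mem {x : Qb} (hx : x ∈ M) : x ∈ F := by
  have h : x ∈ F.restrictScalars ℚ := by
    rw [hF]
    exact (le_sup_left : M ≤ M ⊔ localField l) hx
  exact h

include hF in
theorem compositum_eq_adjoin : F = adjoin (localField l) (M : Set Qb) := by
  apply restrictScalars_injective ℚ
  have h := restrictScalars_adjoin_eq_sup ℚ (localField l) (M : Set Qb)
  rw [adjoin_self] at h
  rw [hF, sup_comm]
  exact h.symm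

include hM hF in
theorem finrank_compositum_le [FiniteDimensional (localField l) F] :
    Module.finrank (localField l) F ≤ Module.finrank ℚ M := by
  haveI := Fermat.Agent.H81.isAlgebraic_rat_Qbar
  haveI := finiteDimensional_of_le_cyc M hM
  have h := adjoin_rank_le_of_isAlgebraic_right (localField l) M
  rw [← compositum_eq_adjoin M F hF] at h
  exact Cardinal.toNat_le_toNat h (Module.rank_lt_aleph0 ℚ M)

include hζ hF in
/-- `M · K_ℓ / K_ℓ` is totally ramified of degree `[M : ℚ]` with uniformizer `π_M`. -/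
theorem tame_structure [FiniteDimensional (localField l) F] :
    Module.finrank (localField l) F = Module.finrank ℚ M ∧
    resCard l (F.restrictScalars ℚ) = resCard l (localField l) ∧
    IsUnif l (F.restrictScalars ℚ) ((piM M hM : M) : Qb) := by
  haveI := finiteDimensional_of_le_cyc M hM
  have hl : l.Prime := Fact.out
  have hE := isLocalFinite_localField l
  have hFl := isLocalFinite_compositum M hM F hF
  obtain ⟨e, f, he, hf, hef, hres, hval⟩ := exists_ef hE F
  obtain ⟨ϖ, hϖ⟩ := exists_isUnif hFl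
  have h1 := hval (l : Qb) ϖ (isUnif_natCast_localField l) hϖ
  rw [qVal_natCast_self] at h1
  have hp0 : 0 < Module.finrank ℚ M := Module.finrank_pos
  have hpow := qVal_piM_pow hζ M hM
  have hη0 : ((piM M hM : M) : Qb) ≠ 0 := by
    intro h0
    rw [h0, map_zero, zero_pow hp0.ne'] at hpow
    exact (qInv_pos l).ne hpow
  have hηF : ((piM M hM : M) : Qb) ∈ F.restrictScalars ℚ :=
    mem_compositum_of_mem M F hF (piM M hM).2
  obtain ⟨j, hj⟩ := hϖ.2.2.2 _ hηF hη0
  have h2 : qVal l ϖ ^ (j * (Module.finrank ℚ M : ℤ)) = qVal l ϖ ^ (e : ℤ) := by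
    rw [zpow_mul, ← hj, zpow_natCast, hpow, zpow_natCast, ← h1]
  have h3 : j * (Module.finrank ℚ M : ℤ) = (e : ℤ) :=
    zpow_right_injective₀ hϖ.pos hϖ.2.2.1.ne h2
  have hle := finrank_compositum_le M hM F hF
  have hj1 : 1 ≤ j := by
    by_contra hcon
    have hj0 : j ≤ 0 := by omega
    have hn0 : (0 : ℤ) ≤ (Module.finrank ℚ M : ℤ) := Int.natCast_nonneg _
    have h4 : j * (Module.finrank ℚ M : ℤ) ≤ 0 :=
      mul_nonpos_of_nonpos_of_nonneg hj0 hn0
    have he' : (0 : ℤ) < (e : ℤ) := by exact_mod_cast he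
    omega
  have hpe : Module.finrank ℚ M ≤ e := by
    have : (Module.finrank ℚ M : ℤ) ≤ j * (Module.finrank ℚ M : ℤ) := by nlinarith
    have h5 : (Module.finrank ℚ M : ℤ) ≤ (e : ℤ) := by rw [← h3]; exact this
    exact_mod_cast h5
  have hef' : e * f ≤ Module.finrank ℚ M := by rw [hef]; exact hle
  have hf1 : f = 1 := by
    by_contra hcon
    have : 2 ≤ f := by omega
    nlinarith
  have he1 : e = Module.finrank ℚ M := by
    subst hf1
    omega
  have hjone : j = 1 := by
    rw [← he1] at h3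
    have he0 : (e : ℤ) ≠ 0 := by exact_mod_cast he.ne'
    have : (j - 1) * (e : ℤ) = 0 := by linarith
    rcases mul_eq_zero.mp this with h | h
    · omega
    · exact absurd h he0
  have hηϖ : qVal l ((piM M hM : M) : Qb) = qVal l ϖ := by
    rw [hj, hjone, zpow_one]
  refine ⟨?_, ?_, hηF, hη0, ?_, ?_⟩
  · rw [← hef, hf1, mul_one, he1]
  · rw [hres, hf1, pow_one]
  · rw [hηϖ]; exact hϖ.2.2.1
  · intro x hx hx0
    obtain ⟨k, hk⟩ := hϖ.2.2.2 x hx hx0
    exact ⟨k, by rw [hηϖ, hk]⟩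

/-- The inclusion `M → M · K_ℓ`. -/
def inclM : M →ₐ[ℚ] F where
  toFun x := ⟨x.1, mem_compositum_of_mem M F hF x.2⟩
  map_one' := rfl
  map_mul' _ _ := rfl
  map_zero' := rfl
  map_add' _ _ := rfl
  commutes' _ := rfl

/-- Restriction of embeddings of `M · K_ℓ` to `M`. -/
def restrictEmb (τ : F →ₐ[localField l] Qb) : M →ₐ[ℚ] Qb :=
  (τ.restrictScalars ℚ).comp (inclM M F hF)

theorem restrictEmb_injective : Function.Injective (restrictEmb M F hF) := by
  intro τ₁ τ₂ h
  apply algHom_ext_of_eq_adjoin (localField l) (compositum_eq_adjoin M F hF)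
  intro x hx
  have := congrArg (fun ρ : M →ₐ[ℚ] Qb => ρ ⟨x, hx⟩) h
  exact this

include hζ in
/-- `N_{M·K_ℓ / K_ℓ}(π_M) = ℓ`. -/
theorem norm_piM_local [FiniteDimensional (localField l) F] (hl2 : l ≠ 2) :
    ((Algebra.norm (localField l) (inclM M F hF (piM M hM)) : localField l) : Qb) = (l : Qb) := by
  classical
  haveI := finiteDimensional_of_le_cyc M hM
  have h1 : ((Algebra.norm (localField l) (inclM M F hF (piM M hM)) : localField l) : Qb)
      = ∏ τ : F →ₐ[localField l] Qb, τ (inclM M F hF (piM M hM)) :=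
    Algebra.norm_eq_prod_embeddings (localField l) Qb _
  have h2 : algebraMap ℚ Qb (Algebra.norm ℚ (piM M hM)) = ∏ ρ : M →ₐ[ℚ] Qb, ρ (piM M hM) :=
    Algebra.norm_eq_prod_embeddings ℚ Qb _
  rw [norm_piM hζ M hM hl2] at h2
  have hcard : Fintype.card (F →ₐ[localField l] Qb) = Fintype.card (M →ₐ[ℚ] Qb) := by
    rw [AlgHom.card_of_splits (localField l) F Qb (fun s => IsAlgClosed.splits _),
      AlgHom.card_of_splits ℚ M Qb (fun s => IsAlgClosed.splits _)]
    exact (tame_structure hζ M hM F hF).1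
  have hbij : Function.Bijective (restrictEmb M F hF) :=
    (Fintype.bijective_iff_injective_and_card _).mpr ⟨restrictEmb_injective M F hF, hcard⟩
  rw [h1]
  have h3 : (l : Qb) = algebraMap ℚ Qb (l : ℚ) := by simp
  rw [h3, h2]
  exact Function.Bijective.prod_comp hbij (fun ρ : M →ₐ[ℚ] Qb => ρ (piM M hM))

include hζ hM hF in
/-- **RQ-TAME, generic form.** -/
theorem tame_generic [FiniteDimensional (localField l) F] (hl2 : l ≠ 2) :
    Module.finrank (localField l) F = Module.finrank ℚ M ∧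
    ∀ (a : localField l) (e : ℤ), qVal l (a : Qb) = qVal l (l : Qb) ^ e →
      (∃ y : F, Algebra.norm (localField l) y = a) →
      ∃ b : ℤ, qVal l ((a : Qb) * ((l : Qb) ^ e)⁻¹ - (b : Qb) ^ Module.finrank ℚ M) < 1 := by
  obtain ⟨hdeg, hres, hunif⟩ := tame_structure hζ M hM F hF
  refine ⟨hdeg, ?_⟩
  rintro a e hae ⟨y, rfl⟩
  have hE := isLocalFinite_localField l
  have hl0 : qVal l (l : Qb) ≠ 0 := by
    rw [qVal_natCast_self]; exact (qInv_pos l).ne'
  have hy : y ≠ 0 := by
    rintro rfl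
    rw [Algebra.norm_zero] at hae
    have : qVal l ((0 : localField l) : Qb) = 0 := by simp
    rw [this] at hae
    exact zpow_ne_zero e hl0 hae.symm
  obtain ⟨k, x, hxE, hx1, hx⟩ := exists_norm_eq_unif_pow hE F hres (inclM M F hF (piM M hM))
    hunif y hy
  rw [norm_piM_local hζ M hM F hF hl2, hdeg] at hx
  set n := Module.finrank ℚ M with hn
  -- the exponent `k` is `e`
  have hxn : qVal l (x ^ n) = 1 := by rw [map_pow, hx1, one_pow]
  have hu : qVal l (((Algebra.norm (localField l) y : localField l) : Qb) * ((l : Qb) ^ k)⁻¹) = 1 := by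
    have h := Valuation.map_add_eq_of_lt_right (qVal l)
      (x := ((Algebra.norm (localField l) y : localField l) : Qb) * ((l : Qb) ^ k)⁻¹ - x ^ n)
      (y := x ^ n) (by rw [hxn]; exact hx)
    rw [sub_add_cancel] at h
    rw [h, hxn]
  have hke : k = e := by
    rw [map_mul, map_inv₀, map_zpow₀, hae] at hu
    have h2 : qVal l (l : Qb) ^ e = qVal l (l : Qb) ^ k := by
      have hk0 : qVal l (l : Qb) ^ k ≠ 0 := zpow_ne_zero k hl0
      field_simp at hu
      exact hu
    have hl1 : qVal l (l : Qb) < 1 := by rw [qVal_natCast_self]; exact qInv_lt_one l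
    exact (zpow_right_injective₀ (zero_lt_iff.mpr hl0) hl1.ne h2).symm
  subst hke
  obtain ⟨c, -, hc⟩ := exists_nat_rep l hxE hx1.le
  refine ⟨(c : ℤ), ?_⟩
  have hcx : qVal l (x ^ n - ((c : ℤ) : Qb) ^ n) < 1 := by
    have hc1 : qVal l ((c : ℕ) : Qb) ≤ 1 := qVal_natCast_le_one l c
    have := (qVal_prod_sub_pow_lt_one (q := l) (Finset.range n) (fun _ => x) ((c : ℕ) : Qb) hc1
      (fun _ _ => hc)).1
    simpa using this
  have hsplit : ((Algebra.norm (localField l) y : localField l) : Qb) * ((l : Qb) ^ k)⁻¹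
      - ((c : ℤ) : Qb) ^ n
      = (((Algebra.norm (localField l) y : localField l) : Qb) * ((l : Qb) ^ k)⁻¹ - x ^ n)
        + (x ^ n - ((c : ℤ) : Qb) ^ n) := by ring
  rw [hsplit]
  exact lt_of_le_of_lt (Valuation.map_add _ _ _) (max_lt hx hcx)

end LocalPart

end Fermat.Agent.H81.Recip
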